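/-
S30 / S32 / S34 / S35 -- the TATE LATTICE input `hlat` (helper42).

`tateLattice` has EXACTLY the shape of the hypothesis `hlat` of
`Fermat/Agent/S32/Eig.lean` (`flatEigenStatement_of_inputs`), `S35/H991/Wired.lean` and
`S34/H789/Inputs.lean`:

* `Λ`  := the `ℤ`-module of parabolic additive characters `Γ₀(N) → ℤ` (`parLattice N`), finite
  (restriction to a finite generating set is injective) and torsion-free, hence free;
* `TΛ ℓ` := the cohomological Hecke operator `heckeCoh N ℓ` (for `ℓ ∤ N`, else `0`);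
* `κ n c` := the Kummer class of `c mod p ^ n` (Kummer tower of `H450`, packages of `Chain`);
* occurrence of every Hecke character in `R ⊗ Λ`: `H169.exists_eigen_parLattice_coord` and
  flatness of the torsion-free `ℤ`-module `R`.
-/
import Fermat.Agent.S30.Chain.Package
import Fermat.Agent.S30.H169.OccCoord
import Fermat.Agent.S29.HCoh

set_option autoImplicit false
set_option linter.style.haveILetI false

noncomputable section

namespace Fermat.Agent.S30.H42

open Fermat.Agent.S29 (G0 IsParHom heckeCoh)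
open ModularCurve
open scoped TensorProduct

/-! ### The lattice of parabolic characters -/

/-- The `ℤ`-module of parabolic additive characters `Γ₀(N) → ℤ`. -/
def parLattice (N : ℕ) : Submodule ℤ (G0 N → ℤ) where
  carrier := {c | IsParHom c}
  add_mem' := by
    intro c c' hc hc'
    refine ⟨fun γ γ' => ?_, fun γ hγ => ?_, fun γ n hn hγ => ?_⟩
    · simp only [Pi.add_apply, hc.map_mul, hc'.map_mul]; ring
    · simp only [Pi.add_apply, hc.parabolic γ hγ, hc'.parabolic γ hγ, add_zero]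
    · simp only [Pi.add_apply, hc.elliptic γ n hn hγ, hc'.elliptic γ n hn hγ, add_zero]
  zero_mem' := ⟨fun _ _ => by simp, fun _ _ => rfl, fun _ _ _ _ => rfl⟩
  smul_mem' := by
    intro a c hc
    refine ⟨fun γ γ' => ?_, fun γ hγ => ?_, fun γ n hn hγ => ?_⟩
    · simp only [Pi.smul_apply, hc.map_mul, smul_add]
    · simp only [Pi.smul_apply, hc.parabolic γ hγ, smul_zero]
    · simp only [Pi.smul_apply, hc.elliptic γ n hn hγ, smul_zero]

theorem mem_parLattice {N : ℕ} {c : G0 N → ℤ} : c ∈ parLattice N ↔ IsParHom c := Iff.rfl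

/-- A character is determined by its values on a generating set. -/
theorem parHom_eq_zero_of_closure {N : ℕ} {A : Type*} [AddCommGroup A] {c : G0 N → A}
    (hc : IsParHom c) (S₀ : Set (G0 N)) (hS₀ : Subgroup.closure S₀ = ⊤)
    (h0 : ∀ γ ∈ S₀, c γ = 0) (γ : G0 N) : c γ = 0 := by
  have h1 : c 1 = 0 := by
    have := hc.map_mul 1 1
    rw [mul_one] at this
    exact (add_eq_left.mp this.symm)
  have hγ : γ ∈ Subgroup.closure S₀ := hS₀ ▸ Subgroup.mem_top γ
  induction hγ using Subgroup.closure_induction with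
  | mem x hx => exact h0 x hx
  | one => exact h1
  | mul x y _ _ hx hy => rw [hc.map_mul, hx, hy, add_zero]
  | inv x _ hx =>
    have := hc.map_mul x x⁻¹
    rw [mul_inv_cancel, h1, hx, zero_add] at this
    exact this.symm

instance parLattice_finite (N : ℕ) [NeZero N] : Module.Finite ℤ (parLattice N) := by
  classical
  obtain ⟨S₀, hS₀, hS₀fin⟩ := Group.fg_iff.mp (Fermat.Agent.S29.M4aTop_fg_Gamma0 N)
  haveI : Finite S₀ := hS₀fin
  let r : parLattice N →ₗ[ℤ] (S₀ → ℤ) :=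
    { toFun := fun c γ => (c : G0 N → ℤ) γ
      map_add' := fun _ _ => rfl
      map_smul' := fun _ _ => rfl }
  have hr : Function.Injective r := by
    rw [← LinearMap.ker_eq_bot, LinearMap.ker_eq_bot']
    intro c hc
    apply Subtype.ext
    funext γ
    exact parHom_eq_zero_of_closure c.2 S₀ hS₀ (fun δ hδ => congrFun hc ⟨δ, hδ⟩) γ
  exact Module.Finite.of_injective r hr

instance parLattice_free (N : ℕ) [NeZero N] : Module.Free ℤ (parLattice N) :=
  Module.free_of_finite_type_torsion_free'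

/-! ### The Hecke operators on the lattice -/

theorem heckeCoh_add_h42 (N : ℕ) {A : Type*} [AddCommMonoid A] (ℓ : ℕ) (c c' : G0 N → A) :
    heckeCoh N ℓ (c + c') = heckeCoh N ℓ c + heckeCoh N ℓ c' := by
  funext γ
  simp only [heckeCoh, Pi.add_apply, Finset.sum_add_distrib]

theorem heckeCoh_zsmul_h42 (N : ℕ) (ℓ : ℕ) (a : ℤ) (c : G0 N → ℤ) :
    heckeCoh N ℓ (a • c) = a • heckeCoh N ℓ c := by
  funext γ
  simp only [heckeCoh, Pi.smul_apply, Finset.smul_sum]

theorem heckeCoh_map_h42 (N : ℕ) {A B : Type*} [AddCommMonoid A] [AddCommMonoid B] (ℓ : ℕ)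
    (f : A →+ B) (c : G0 N → A) :
    heckeCoh N ℓ (fun γ => f (c γ)) = fun γ => f (heckeCoh N ℓ c γ) := by
  funext γ
  simp only [heckeCoh, map_sum]

open Classical in
/-- The Hecke operator `T_ℓ` on the lattice of parabolic characters (`0` if `ℓ ∣ N`). -/
def TLat (N : ℕ) [NeZero N] (ℓ : Nat.Primes) : parLattice N →ₗ[ℤ] parLattice N :=
  if h : ¬ (ℓ : ℕ) ∣ N then
    { toFun := fun c => ⟨heckeCoh N ℓ (c : G0 N → ℤ),
        Fermat.Agent.S29.isParHom_heckeCoh N ℓ.2 h c.2⟩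
      map_add' := fun _ _ => Subtype.ext (heckeCoh_add_h42 N ℓ _ _)
      map_smul' := fun a _ => Subtype.ext (heckeCoh_zsmul_h42 N ℓ a _) }
  else 0

theorem TLat_coe {N : ℕ} [NeZero N] {ℓ : Nat.Primes} (h : ¬ (ℓ : ℕ) ∣ N) (c : parLattice N) :
    ((TLat N ℓ c : parLattice N) : G0 N → ℤ) = heckeCoh N ℓ (c : G0 N → ℤ) := by
  rw [TLat, dif_pos h]
  rfl

/-! ### Reduction of characters modulo `m` -/

/-- Reduction of an integral character modulo `m`. -/
def redChar {N : ℕ} (m : ℕ) (c : G0 N → ℤ) : G0 N → ZMod m := fun γ => ((c γ : ℤ) : ZMod m)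

theorem redChar_add {N : ℕ} (m : ℕ) (c c' : G0 N → ℤ) :
    redChar m (c + c') = redChar m c + redChar m c' := by
  funext γ
  simp only [redChar, Pi.add_apply, Int.cast_add]

theorem redChar_zero {N : ℕ} (m : ℕ) : redChar m (0 : G0 N → ℤ) = 0 := by
  funext γ
  simp only [redChar, Pi.zero_apply, Int.cast_zero]

theorem isParHom_redChar {N : ℕ} (m : ℕ) {c : G0 N → ℤ} (hc : IsParHom c) :
    IsParHom (redChar m c) := by
  refine ⟨fun γ γ' => ?_, fun γ hγ => ?_, fun γ n hn hγ => ?_⟩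
  · simp only [redChar, hc.map_mul, Int.cast_add]
  · simp only [redChar, hc.parabolic γ hγ, Int.cast_zero]
  · simp only [redChar, hc.elliptic γ n hn hγ, Int.cast_zero]

theorem redChar_heckeCoh {N : ℕ} (m : ℕ) (ℓ : ℕ) (c : G0 N → ℤ) :
    redChar m (heckeCoh N ℓ c) = heckeCoh N ℓ (redChar m c) :=
  (heckeCoh_map_h42 N ℓ (Int.castAddHom (ZMod m)) c).symm

theorem redChar_eq_zero_iff {N : ℕ} (m : ℕ) (c : G0 N → ℤ) :
    redChar m c = 0 ↔ ∀ γ, (m : ℤ) ∣ c γ := by
  constructor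
  · intro h γ
    exact (ZMod.intCast_zmod_eq_zero_iff_dvd _ _).mp (congrFun h γ)
  · intro h
    funext γ
    exact (ZMod.intCast_zmod_eq_zero_iff_dvd _ _).mpr (h γ)

/-- Division of a parabolic character by `m ≠ 0` when all its values are divisible by `m`. -/
theorem exists_parLattice_eq_smul {N : ℕ} {m : ℤ} (hm : m ≠ 0) (x : parLattice N)
    (h : ∀ γ, m ∣ (x : G0 N → ℤ) γ) : ∃ y : parLattice N, x = m • y := by
  have hx : IsParHom (x : G0 N → ℤ) := x.2
  have hy : ∀ γ, (x : G0 N → ℤ) γ = m * ((x : G0 N → ℤ) γ / m) :=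
    fun γ => (Int.mul_ediv_cancel' (h γ)).symm
  refine ⟨⟨fun γ => (x : G0 N → ℤ) γ / m, ⟨fun γ γ' => ?_, fun γ hγ => ?_, fun γ n hn hγ => ?_⟩⟩,
    ?_⟩
  · apply mul_left_cancel₀ hm
    rw [mul_add, ← hy, ← hy, ← hy, hx.map_mul]
  · rw [hx.parabolic γ hγ, Int.zero_ediv]
  · rw [hx.elliptic γ n hn hγ, Int.zero_ediv]
  · apply Subtype.ext
    funext γ
    simp only [Submodule.coe_smul, Pi.smul_apply, smul_eq_mul]
    exact hy γ

/-! ### The Kummer maps on the lattice -/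

/-- The Kummer tower on the lattice: additivity, kernel, compatibility, Hecke-equivariance. -/
theorem exists_kummerLattice (N p : ℕ) [NeZero N] [NeZero p] :
    ∃ κ : ℕ → parLattice N →ₗ[ℤ] JZero N,
      (∀ (n : ℕ) (x : parLattice N), κ n x = 0 ↔ ∃ y : parLattice N, x = ((p : ℤ) ^ n) • y) ∧
      (∀ (n : ℕ) (x : parLattice N), (p : ℤ) • κ (n + 1) x = κ n x) ∧
      (∀ ℓ : Nat.Primes, ¬ (ℓ : ℕ) ∣ N * p → ∀ (n : ℕ) (x : parLattice N),
        κ n (TLat N ℓ x) = heckeOperatorBar N ℓ (κ n x)) := by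
  obtain ⟨κ₀, -, hadd, hinj, hcompat, hhecke⟩ :=
    Fermat.Agent.S30.H450.exists_kummerTower_isKum_of (N := N) (p := p)
      (fun n => Fermat.Agent.S30.Chain.kumPackage N (p ^ n))
  have hzero : ∀ n, κ₀ n 0 = 0 := by
    intro n
    have h0 : IsParHom (0 : G0 N → ZMod (p ^ n)) := by
      have := isParHom_redChar (N := N) (p ^ n) (parLattice N).zero_mem
      rwa [redChar_zero] at this
    have := hadd n 0 0 h0 h0
    rw [add_zero] at this
    exact add_eq_left.mp this.symm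
  let κ : ℕ → parLattice N →ₗ[ℤ] JZero N := fun n =>
    (AddMonoidHom.mk' (fun c : parLattice N => κ₀ n (redChar (p ^ n) (c : G0 N → ℤ)))
      (fun c c' => by
        show κ₀ n (redChar (p ^ n) ((c : G0 N → ℤ) + (c' : G0 N → ℤ))) = _
        rw [redChar_add]
        exact hadd n _ _ (isParHom_redChar _ c.2) (isParHom_redChar _ c'.2))).toIntLinearMap
  have hκ : ∀ n (c : parLattice N), κ n c = κ₀ n (redChar (p ^ n) (c : G0 N → ℤ)) :=
    fun _ _ => rfl
  have hpn : ∀ n : ℕ, ((p : ℤ) ^ n) ≠ 0 := fun n =>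
    pow_ne_zero _ (by exact_mod_cast NeZero.ne p)
  refine ⟨κ, fun n x => ⟨fun h => ?_, fun h => ?_⟩, fun n x => ?_, fun ℓ hℓ n x => ?_⟩
  · rw [hκ] at h
    have h1 := hinj n _ (isParHom_redChar _ x.2) h
    rw [redChar_eq_zero_iff] at h1
    refine exists_parLattice_eq_smul (hpn n) x (fun γ => ?_)
    have := h1 γ
    rwa [Nat.cast_pow] at this
  · obtain ⟨y, rfl⟩ := h
    rw [hκ]
    have : redChar (p ^ n) ((((p : ℤ) ^ n) • y : parLattice N) : G0 N → ℤ) = 0 := by
      rw [redChar_eq_zero_iff]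
      intro γ
      rw [Nat.cast_pow]
      exact ⟨(y : G0 N → ℤ) γ, rfl⟩
    rw [this, hzero]
  · rw [hκ, hκ, hcompat n _ (isParHom_redChar _ x.2)]
    congr 1
    funext γ
    simp only [redChar, map_intCast]
  · have hℓN : ¬ (ℓ : ℕ) ∣ N := fun hd => hℓ (Dvd.dvd.mul_right hd p)
    rw [hκ, hκ, TLat_coe hℓN, redChar_heckeCoh]
    exact hhecke ℓ hℓ n _ (isParHom_redChar _ x.2)

/-! ### Occurrence of Hecke characters in `R ⊗ Λ` -/

/-- An additive function on `Γ₀(N)` vanishing on a generating set vanishes. -/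
theorem addFun_eq_zero_of_closure {N : ℕ} {A : Type*} [AddCommGroup A] {c : G0 N → A}
    (hc : ∀ γ γ' : G0 N, c (γ * γ') = c γ + c γ') (S₀ : Set (G0 N))
    (hS₀ : Subgroup.closure S₀ = ⊤) (h0 : ∀ γ ∈ S₀, c γ = 0) (γ : G0 N) : c γ = 0 := by
  have h1 : c 1 = 0 := by
    have := hc 1 1
    rw [mul_one] at this
    exact (add_eq_left.mp this.symm)
  have hγ : γ ∈ Subgroup.closure S₀ := hS₀ ▸ Subgroup.mem_top γ
  induction hγ using Subgroup.closure_induction with
  | mem x hx => exact h0 x hx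
  | one => exact h1
  | mul x y _ _ hx hy => rw [hc, hx, hy, add_zero]
  | inv x _ hx =>
    have := hc x x⁻¹
    rw [mul_inv_cancel, h1, hx, zero_add] at this
    exact this.symm

/-- Every character of the Hecke algebra with values in a characteristic-zero domain `R` occurs
in `R ⊗ Λ`. -/
theorem exists_occ (N : ℕ) [NeZero N] (S : Set ℕ) (R : Type) [CommRing R] [IsDomain R]
    [CharZero R] (χ : CuspForm.heckeAlgebra N 2 S →+* R) :
    ∃ v : R ⊗[ℤ] parLattice N, v ≠ 0 ∧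
      ∀ (ℓ : ℕ) (hℓ : ℓ.Prime) (hℓN : ¬ ℓ ∣ N) (hℓS : ℓ ∉ S),
        (TLat N ⟨ℓ, hℓ⟩).baseChange R v = χ (CuspForm.heckeAlgebra.T hℓ hℓN hℓS) • v := by
  classical
  obtain ⟨n, w, c, hc, ⟨γ₀, hγ₀⟩, heig⟩ :=
    Fermat.Agent.S30.H169.exists_eigen_parLattice_coord N S R χ
  obtain ⟨S₀, hS₀, hS₀fin⟩ := Group.fg_iff.mp (Fermat.Agent.S29.M4aTop_fg_Gamma0 N)
  letI : Fintype S₀ := hS₀fin.fintype
  -- restriction to the generating set
  let r : parLattice N →ₗ[ℤ] (S₀ → ℤ) :=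
    { toFun := fun c γ => (c : G0 N → ℤ) γ
      map_add' := fun _ _ => rfl
      map_smul' := fun _ _ => rfl }
  have hr : Function.Injective r := by
    rw [← LinearMap.ker_eq_bot, LinearMap.ker_eq_bot']
    intro c hc
    apply Subtype.ext
    funext γ
    exact parHom_eq_zero_of_closure c.2 S₀ hS₀ (fun δ hδ => congrFun hc ⟨δ, hδ⟩) γ
  let E : R ⊗[ℤ] parLattice N →ₗ[R] (S₀ → R) :=
    (TensorProduct.piScalarRight ℤ R R S₀).toLinearMap ∘ₗ (r.baseChange R)
  have hE : Function.Injective E := by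
    have h1 : Function.Injective (r.baseChange R) := by
      rw [LinearMap.baseChange_eq_ltensor]
      exact Module.Flat.lTensor_preserves_injective_linearMap r hr
    exact (TensorProduct.piScalarRight ℤ R R S₀).injective.comp h1
  have hEt : ∀ (a : R) (x : parLattice N) (γ : S₀),
      E (a ⊗ₜ[ℤ] x) γ = a * (((x : G0 N → ℤ) γ : ℤ) : R) := by
    intro a x γ
    show (TensorProduct.piScalarRight ℤ R R S₀) ((r.baseChange R) (a ⊗ₜ[ℤ] x)) γ = _
    rw [LinearMap.baseChange_tmul, TensorProduct.piScalarRight_apply,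
      TensorProduct.piScalarRightHom_tmul]
    show (r x γ : ℤ) • a = _
    rw [zsmul_eq_mul, mul_comm]
    rfl
  let v : R ⊗[ℤ] parLattice N := ∑ j, w j ⊗ₜ[ℤ] (⟨c j, hc j⟩ : parLattice N)
  have hEv : ∀ γ : S₀, E v γ = ∑ j, w j * ((c j γ : ℤ) : R) := by
    intro γ
    simp only [v, map_sum, Finset.sum_apply, hEt]
  refine ⟨v, fun hv => hγ₀ ?_, fun ℓ hℓ hℓN hℓS => hE ?_⟩
  · -- the `R`-valued character `∑ w j * c j` vanishes on the generators
    refine addFun_eq_zero_of_closure (c := fun γ => ∑ j, w j * ((c j γ : ℤ) : R))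
      (fun γ γ' => ?_) S₀ hS₀ (fun γ hγ => ?_) γ₀
    · simp only [(hc _).map_mul, Int.cast_add, mul_add, Finset.sum_add_distrib]
    · have := hEv ⟨γ, hγ⟩
      rw [hv, map_zero] at this
      exact this.symm
  · funext γ
    have h1 : E ((TLat N ⟨ℓ, hℓ⟩).baseChange R v) γ
        = ∑ j, w j * ((heckeCoh N ℓ (c j) γ : ℤ) : R) := by
      simp only [v, map_sum, LinearMap.baseChange_tmul, Finset.sum_apply, hEt]
      refine Finset.sum_congr rfl fun j _ => ?_
      rw [TLat_coe (ℓ := ⟨ℓ, hℓ⟩) hℓN]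
    rw [h1, map_smul, Pi.smul_apply, hEv, smul_eq_mul]
    exact heig ℓ hℓ hℓN hℓS γ

/-! ### The Tate lattice -/

/-- **The Tate lattice** (input `hlat` of `S32/Eig.lean`, `S35/H991/Wired.lean`,
`S34/H789/Inputs.lean`, in exactly that shape). -/
theorem tateLattice : ∀ (N p : ℕ) [NeZero N], p.Prime →
    ∃ (Λ : Type) (_ : AddCommGroup Λ) (_ : Module.Free ℤ Λ) (_ : Module.Finite ℤ Λ)
      (TΛ : Nat.Primes → Λ →ₗ[ℤ] Λ) (κ : ℕ → Λ →ₗ[ℤ] ModularCurve.JZero N),
      (∀ (n : ℕ) (x : Λ), κ n x = 0 ↔ ∃ y : Λ, x = ((p : ℤ) ^ n) • y) ∧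
      (∀ (n : ℕ) (x : Λ), (p : ℤ) • κ (n + 1) x = κ n x) ∧
      (∀ ℓ : Nat.Primes, ¬ (ℓ : ℕ) ∣ N * p → ∀ (n : ℕ) (x : Λ),
        κ n (TΛ ℓ x) = ModularCurve.heckeOperatorBar N ℓ (κ n x)) ∧
      (∀ (S : Set ℕ) (R : Type) [CommRing R] [IsDomain R] [CharZero R]
        (χ : CuspForm.heckeAlgebra N 2 S →+* R),
        ∃ v : R ⊗[ℤ] Λ, v ≠ 0 ∧
          ∀ (ℓ : ℕ) (hℓ : ℓ.Prime) (hℓN : ¬ ℓ ∣ N) (hℓS : ℓ ∉ S),
            (TΛ ⟨ℓ, hℓ⟩).baseChange R v = χ (CuspForm.heckeAlgebra.T hℓ hℓN hℓS) • v) := by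
  intro N p _ hp
  haveI : NeZero p := ⟨hp.ne_zero⟩
  obtain ⟨κ, h1, h2, h3⟩ := exists_kummerLattice N p
  exact ⟨parLattice N, inferInstance, parLattice_free N, parLattice_finite N, TLat N, κ,
    h1, h2, h3, fun S R _ _ _ χ => exists_occ N S R χ⟩

end Fermat.Agent.S30.H42
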